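/-
S35lib / Interface (helper8, architect of route FN).  INTERFACE between project LSc (the geometry
of `J₀(M q)` at a prime `q ∤ M`: "Frobenius on `q`-new classes") and the assembly of S35.

* `pushAlpha M q`, `pushBeta M q : J₀(M q) → J₀(M)` : the push-forwards along the two degeneracy
  maps `α` (inclusion) and `β` (`z ↦ q z`) of function fields;
* `IsQNew M q x` : `α_* x = 0 ∧ β_* x = 0`;
* `frobNewOp N q σ x = (σ² - q²)(σ² - 1) x`;
* `FrobNewTors M q p` : up to a fixed nonzero integer `d`, every Frobenius lift `σ` at `q` satisfies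
  `(σ² - q²)(σ² - 1) = 0` on the `q`-new classes of `J₀(M q)[p^∞]`      (project LSc, blocks I1–I5);
* `QNewKiller M q p g` : a noncommutative polynomial `P` in the good Hecke operators
  (`ℓ ∤ M q p`) with `P(a_ℓ(g)) ≠ 0` such that `P(T) x` is `q`-new for every `x ∈ J₀(M q)[p^∞]`
  (block R2: the eigenpiece of a newform of level `M q` is `q`-new).
-/
import Fermat.Agent.S29lib.Interface.Basic
import Fermat.Agent.S34lib.Unip.Interface
import Fermat.Agent.S37lib.HeckeInst.Final
import Fermat.Agent.LSb.Xfer.PushPull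

set_option autoImplicit false
set_option linter.style.haveILetI false
set_option linter.unusedSectionVars false

noncomputable section

namespace Fermat.Agent.S35lib

open AlgebraicCurve ModularCurve Fermat.Agent.S29lib Fermat.Agent.S37lib.HeckeInst
open Fermat.Agent.LSb

/-- `ℚ̄` -/
local notation "Qb" => AlgebraicClosure ℚ
/-- `G_ℚ` -/
local notation "GQ" => (AlgebraicClosure ℚ ≃ₐ[ℚ] AlgebraicClosure ℚ)

section Push

variable (M q : ℕ) [NeZero M] [NeZero q]

/-- `α_* : J₀(M q) → J₀(M)`, the push-forward along the inclusion `α` of function fields -/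
def pushAlpha : JZero (M * q) →+ JZero M :=
  haveI := hasPrincipalDivisors_FB (M * q)
  Xfer.pic0PushforwardAlong (heckeAlphaBar Qb M q) (heckeAlphaBarIntegral M q)
    (finiteAlong_alpha M q) (normFormulaAlong_alpha M q)

/-- `β_* : J₀(M q) → J₀(M)`, the push-forward along `β` (`z ↦ q z`) -/
def pushBeta : JZero (M * q) →+ JZero M :=
  haveI := hasPrincipalDivisors_FB (M * q)
  Xfer.pic0PushforwardAlong (heckeBetaBar Qb M q) (heckeBetaBarIntegral M q)
    (finiteAlong_beta M q) (normFormulaAlong_beta M q)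

theorem pushAlpha_mk (D : Divisor.degZero (K := Qb) (F := FB (M * q))) :
    pushAlpha M q (Pic0.mk D) =
      Pic0.mk ⟨Divisor.pushforwardAlong (heckeAlphaBar Qb M q) (heckeAlphaBarIntegral M q)
        (D : Divisor Qb (FB (M * q))),
        Divisor.pushforwardAlong_mem_degZero (heckeAlphaBar Qb M q) (heckeAlphaBarIntegral M q)
          D.2⟩ :=
  rfl

theorem pushBeta_mk (D : Divisor.degZero (K := Qb) (F := FB (M * q))) :
    pushBeta M q (Pic0.mk D) =
      Pic0.mk ⟨Divisor.pushforwardAlong (heckeBetaBar Qb M q) (heckeBetaBarIntegral M q)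
        (D : Divisor Qb (FB (M * q))),
        Divisor.pushforwardAlong_mem_degZero (heckeBetaBar Qb M q) (heckeBetaBarIntegral M q)
          D.2⟩ :=
  rfl

/-- a class of `J₀(M q)` is **`q`-new** if both degeneracy push-forwards kill it -/
def IsQNew (x : JZero (M * q)) : Prop := pushAlpha M q x = 0 ∧ pushBeta M q x = 0

end Push

/-- the operator `(σ² - q²)(σ² - 1)` on `J₀(N)(ℚ̄)` -/
def frobNewOp (N q : ℕ) (σ : GQ) (x : JZero N) : JZero N :=
  σ • σ • (σ • σ • x - x) - ((q ^ 2 : ℕ) : ℤ) • (σ • σ • x - x)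

/-- `frobNewOp` in the expanded form used by lead's `FrobKillAt` (`S35lib/KillInterface.lean`) -/
theorem frobNewOp_eq (N q : ℕ) (σ : GQ) (x : JZero N) :
    frobNewOp N q σ x =
      (σ * σ) • (σ * σ) • x - ((1 : ℤ) + (q : ℤ) ^ 2) • (σ * σ) • x + ((q : ℤ) ^ 2) • x := by
  have h : ((q ^ 2 : ℕ) : ℤ) = (q : ℤ) ^ 2 := by push_cast; rfl
  rw [frobNewOp, h, mul_smul, mul_smul, smul_sub σ, smul_sub σ]
  generalize σ • σ • σ • σ • x = a
  generalize σ • σ • x = b
  module

theorem frobNewOp_zsmul (N q : ℕ) (σ : GQ) (m : ℤ) (x : JZero N) :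
    frobNewOp N q σ (m • x) = m • frobNewOp N q σ x := by
  have h : ∀ y : JZero N, σ • (m • y) = m • (σ • y) := fun y =>
    (DistribSMul.toAddMonoidHom (JZero N) σ).map_zsmul m y
  rw [frobNewOp, frobNewOp, h, h, ← zsmul_sub, h, h]
  generalize σ • σ • (σ • σ • x - x) = a
  generalize σ • σ • x - x = b
  module

/-- **(FN) on torsion**: for `q ∤ M` (only used then), up to a fixed integer `d ≠ 0`, every
Frobenius lift `σ` at (a valuation ring over) `q` satisfies `(σ² - q²)(σ² - 1) = 0` on the `q`-new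
classes of `J₀(M q)[p^k]`. -/
def FrobNewTors (M q p : ℕ) [NeZero M] [NeZero q] : Prop :=
  ∃ d : ℕ, d ≠ 0 ∧
    ∀ A : ValuationSubring Qb, A.LiesOverPrime q → ∀ σ : GQ, A.IsFrobeniusAt σ q →
      ∀ (k : ℕ) (x : JZero (M * q)), x ∈ Tors (M * q) (p ^ k) → IsQNew M q x →
        (d : ℤ) • frobNewOp (M * q) q σ x = 0

/-- the good primes for the triple `(M, q, p)` -/
abbrev GoodPrime (M q p : ℕ) : Type := {ℓ : Nat.Primes // ¬ (ℓ : ℕ) ∣ M * q * p}

/-- the Hecke operator `T_ℓ` on `J₀(N)(ℚ̄)` as a `ℤ`-linear endomorphism -/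
def heckeEnd (N : ℕ) [NeZero N] (ℓ : Nat.Primes) : Module.End ℤ (JZero N) :=
  heckeOperatorBar N ℓ

/-- **(R2) the eigenpiece of `g` is `q`-new**: a noncommutative polynomial `P` in the good Hecke
operators whose value at the eigenvalues of `g` is nonzero, and such that `P(T) x` is `q`-new for
every `p`-power torsion class `x` of `J₀(M q)`. -/
def QNewKiller (M q p : ℕ) [NeZero M] [NeZero q]
    (g : CuspForm (CongruenceSubgroup.Gamma0 (M * q)) 2) : Prop :=
  ∃ P : FreeAlgebra ℤ (GoodPrime M q p),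
    FreeAlgebra.lift ℤ (fun ℓ : GoodPrime M q p => (ModularFormClass.qCoeff g (ℓ.1 : ℕ) : ℂ)) P ≠ 0 ∧
    ∀ (k : ℕ) (x : JZero (M * q)), x ∈ Tors (M * q) (p ^ k) →
      IsQNew M q (FreeAlgebra.lift ℤ (fun ℓ : GoodPrime M q p => heckeEnd (M * q) ℓ.1) P x)

/-- (R2b) **the Hecke killer of level `M`**: a noncommutative polynomial in the good Hecke
operators which kills `J₀(M)[p^∞]` and whose value at the eigenvalues of `g` is nonzero. -/
def HeckeKiller (M q p : ℕ) [NeZero M] [NeZero q]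
    (g : CuspForm (CongruenceSubgroup.Gamma0 (M * q)) 2) : Prop :=
  ∃ P : FreeAlgebra ℤ (GoodPrime M q p),
    FreeAlgebra.lift ℤ (fun ℓ : GoodPrime M q p => (ModularFormClass.qCoeff g (ℓ.1 : ℕ) : ℂ)) P ≠ 0 ∧
    ∀ (k : ℕ) (z : JZero M), z ∈ Tors M (p ^ k) →
      FreeAlgebra.lift ℤ (fun ℓ : GoodPrime M q p => heckeEnd M ℓ.1) P z = 0

end Fermat.Agent.S35lib
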