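/-
S35lib (lead).  INTERFACE between the J-level side of S35 (route FN: `FrobNewTors` from project LSc
+ the Hecke killer of brick R2) and the Galois side (bricks R3/R4: the S30 chain with one more
clause).  The statement `FrobKillTors N p g` mentions neither the lower level `N / q` nor the
degeneracy maps: it says that for a prime `q ∥ N`, `q ≠ p`, some NONCOMMUTATIVE integer polynomial
`P` in the Hecke operators (an element of `FreeAlgebra ℤ Nat.Primes`; no commutativity of the Hecke
operators is ever needed) which does not vanish at the eigensystem of `g`, and some integer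
`c ≠ 0`, satisfy: for every Frobenius lift `σ` at `q`, with `s = σ²`,
`c • (s² - (1 + q²) s + q²) (P(T) x) = 0` for all `x ∈ J₀(N)[p^k]`.
-/
import Fermat.Agent.S29lib.Interface.Basic

set_option autoImplicit false

noncomputable section

namespace Fermat.Agent.S35lib

open ModularCurve Fermat.Agent.S29lib

/-- `ℚ̄` -/
local notation "Qb" => AlgebraicClosure ℚ
/-- `G_ℚ` -/
local notation "GQ" => (AlgebraicClosure ℚ ≃ₐ[ℚ] AlgebraicClosure ℚ)

/-- evaluation of a noncommutative integer polynomial at a family of additive endomorphisms of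
`J₀(N)(ℚ̄)` (the Hecke operators). -/
def heckeEval {N : ℕ} [NeZero N] (TJ : Nat.Primes → (JZero N →+ JZero N)) :
    FreeAlgebra ℤ Nat.Primes →ₐ[ℤ] Module.End ℤ (JZero N) :=
  FreeAlgebra.lift ℤ (fun ℓ => (TJ ℓ).toIntLinearMap)

/-- evaluation of a noncommutative integer polynomial at the `q`-expansion coefficients of `g`. -/
def coeffEval {N : ℕ} (g : CuspForm (CongruenceSubgroup.Gamma0 N) 2) :
    FreeAlgebra ℤ Nat.Primes →ₐ[ℤ] ℂ :=
  FreeAlgebra.lift ℤ (fun ℓ : Nat.Primes => ModularFormClass.qCoeff g (ℓ : ℕ))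

/-- the killed Frobenius relation at ONE prime `q`. -/
def FrobKillAt (N p q : ℕ) [NeZero N] (g : CuspForm (CongruenceSubgroup.Gamma0 N) 2) : Prop :=
  ∃ (c : ℤ) (P : FreeAlgebra ℤ Nat.Primes), c ≠ 0 ∧ coeffEval g P ≠ 0 ∧
    ∀ TJ : Nat.Primes → (JZero N →+ JZero N),
      (∀ ℓ : Nat.Primes, ¬ (ℓ : ℕ) ∣ N → ∀ x : JZero N, TJ ℓ x = heckeOperatorBar N ℓ x) →
      ∀ A : ValuationSubring Qb, A.LiesOverPrime q → ∀ σ : GQ, A.IsFrobeniusAt σ q →
        ∀ (k : ℕ) (x : JZero N), x ∈ Tors N (p ^ k) →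
          c • ((σ * σ) • (σ * σ) • heckeEval TJ P x
            - ((1 : ℤ) + (q : ℤ) ^ 2) • (σ * σ) • heckeEval TJ P x
            + ((q : ℤ) ^ 2) • heckeEval TJ P x) = 0

/-- **(KILL)**: the killed Frobenius relation at every prime `q ∥ N`, `q ≠ p`. -/
def FrobKillTors (N p : ℕ) [NeZero N] (g : CuspForm (CongruenceSubgroup.Gamma0 N) 2) : Prop :=
  ∀ q : ℕ, q.Prime → q ≠ p → q ∣ N → ¬ q ^ 2 ∣ N → FrobKillAt N p q g

end Fermat.Agent.S35lib
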